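import Fermat.Agent.A2.H12.AlgLeaves
import Fermat.Agent.A2.H552.Const

/-!
# A2 / route G, leaf CONST (helper552)

Hand-in for the leaf `Fermat.Agent.A2.H12.ConstLeaf` of `H12/AlgLeaves.lean`:

* `constConclusion_of_sheet` : the conclusion `ConstConclusion L x` for ANY finite extension
  `L / F` possessing ONE sheet `W` (valuation subring over the Gauss valuation) in which `w`
  generates the non-units (`e = 1`).  No Kummer hypothesis.
* `constLeaf_of_base_sheets : BaseLeaf → SheetsLeaf → ConstLeaf` : the leaf, from the conclusions
  `BaseConclusion.exists_sheet`, `SheetsConclusion.exists_over`, `SheetsConclusion.unif`.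

The proof of `closed` is `mem_range_of_isAlgebraic_of_valuationSubring` (`H552/Const.lean`, HENS:
`R` Henselian with algebraically closed residue field of characteristic zero fraction field);
`finite` is the tower `Frac R (x) ⊆ F ⊆ L`.
-/

set_option autoImplicit false

namespace Fermat.Agent.A2.H552

open Fermat.Agent.A2 Fermat.Agent.A2.H12
open Fermat.Agent.S18.H138 (baseField)

section Finite

variable {R E F L : Type*} [CommRing R] [Field E] [Algebra R E] [IsFractionRing R E]
  [Field F] [Algebra E F] [Algebra R F] [IsScalarTower R E F]
  [Field L] [Algebra F L] [Algebra R L] [IsScalarTower R F L]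

/-- The constants `E = Frac R` lie in the base field of the `x`-line of `L`. -/
theorem algebraMap_mem_baseField_cover (x : F) (e : E) :
    algebraMap F L (algebraMap E F e) ∈ baseField R (algebraMap F L x) := by
  obtain ⟨a, b, -, rfl⟩ := IsFractionRing.div_surjective (A := R) e
  rw [map_div₀, map_div₀, ← IsScalarTower.algebraMap_apply R E F,
    ← IsScalarTower.algebraMap_apply R E F, ← IsScalarTower.algebraMap_apply R F L,
    ← IsScalarTower.algebraMap_apply R F L]
  exact div_mem (Subfield.subset_closure (Or.inl ⟨a, rfl⟩))
    (Subfield.subset_closure (Or.inl ⟨b, rfl⟩))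

/-- `E(x) ⊆ F` maps into the base field of the `x`-line of `L`. -/
theorem algebraMap_mem_baseField_of_mem_adjoin (x : F) {z : F}
    (hz : z ∈ IntermediateField.adjoin E ({x} : Set F)) :
    algebraMap F L z ∈ baseField R (algebraMap F L x) := by
  have h : IntermediateField.adjoin E ({x} : Set F) ≤
      Subfield.toIntermediateField ((baseField R (algebraMap F L x)).comap (algebraMap F L))
        (fun e => algebraMap_mem_baseField_cover (R := R) (L := L) x e) := by
    rw [IntermediateField.adjoin_le_iff]
    rintro y hy
    rw [Set.mem_singleton_iff] at hy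
    subst hy
    exact Subfield.subset_closure (Or.inr rfl)
  exact h hz

/-- **CONST, finiteness part**: if `F` is finite over `E(x)` and `L` is finite over `F`, then `L`
is finite over the base field `Frac R (x)` of the `x`-line of `L`. -/
theorem finiteDimensional_baseField_cover (x : F)
    (hfin : FiniteDimensional (IntermediateField.adjoin E ({x} : Set F)) F)
    [FiniteDimensional F L] :
    FiniteDimensional (baseField R (algebraMap F L x)) L := by
  let K := IntermediateField.adjoin E ({x} : Set F)
  let K' := baseField R (algebraMap F L x)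
  have : Module.Finite K L := Module.Finite.trans F L
  let φ : K →+* K' :=
    { toFun := fun a => ⟨algebraMap F L a, algebraMap_mem_baseField_of_mem_adjoin (R := R) x a.2⟩
      map_one' := Subtype.ext (map_one _)
      map_mul' := fun a b => Subtype.ext (map_mul _ _ _)
      map_zero' := Subtype.ext (map_zero _)
      map_add' := fun a b => Subtype.ext (map_add _ _ _) }
  let _ : Algebra K K' := φ.toAlgebra
  have : IsScalarTower K K' L := IsScalarTower.of_algebraMap_eq fun _ => rfl
  exact Module.Finite.of_restrictScalars_finite K K' L

end Finite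

section Closed

variable {R E L : Type*} [CommRing R] [IsDomain R] [IsDiscreteValuationRing R]
  [HenselianLocalRing R] [IsAlgClosed (IsLocalRing.ResidueField R)]
  [Field E] [CharZero E] [Algebra R E] [IsFractionRing R E]
  [Field L] [Algebra E L] [Algebra R L] [IsScalarTower R E L]

variable (E) in
include E in
/-- **CONST, closedness part**: `R` is integrally closed in any extension `L` of `E = Frac R`
possessing a valuation subring `W ⊇ R` in which `w` is a non-unit generating the non-units. -/
theorem isIntegral_mem_range_of_unramified (w : R) (hw : Irreducible w)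
    (W : ValuationSubring L) (hRW : ∀ r : R, algebraMap R L r ∈ W)
    (hwW : algebraMap R L w ∈ W.nonunits)
    (hunif : ∀ a ∈ W.nonunits, ∃ b ∈ W, a = algebraMap R L w * b)
    (y : L) (hy : IsIntegral R y) : y ∈ Set.range (algebraMap R L) := by
  have hinjRL : Function.Injective (algebraMap R L) := by
    rw [IsScalarTower.algebraMap_eq R E L]
    exact (algebraMap E L).injective.comp (IsFractionRing.injective R E)
  have hwL : algebraMap R L w ≠ 0 := fun h0 => hw.ne_zero (hinjRL (by rw [h0, map_zero]))
  have hwinv : (algebraMap R L w)⁻¹ ∉ W := by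
    intro hmem
    have h1 := (ValuationSubring.mem_nonunits_iff W).1 hwW
    have h2 : W.valuation (algebraMap R L w)⁻¹ ≤ 1 := (W.valuation_le_one_iff _).2 hmem
    rw [map_inv₀] at h2
    have h3 : W.valuation (algebraMap R L w) ≠ 0 := (W.valuation.ne_zero_iff).2 hwL
    have h4 : (1 : W.ValueGroup) ≤ W.valuation (algebraMap R L w) := by
      rwa [inv_le_one₀ (zero_lt_iff.2 h3)] at h2
    exact absurd h1 (not_lt.2 h4)
  have hgen : ∀ b ∈ W, b⁻¹ ∉ W → b * (algebraMap R L w)⁻¹ ∈ W := by
    intro b hb hbinv
    have hbn : b ∈ W.nonunits := by
      rw [ValuationSubring.mem_nonunits_iff W]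
      rcases eq_or_ne b 0 with h0 | h0
      · rw [h0, map_zero]
        exact zero_lt_one
      · have h1 : W.valuation b ≤ 1 := (W.valuation_le_one_iff _).2 hb
        refine lt_of_le_of_ne h1 fun h2 => hbinv ?_
        rw [← W.valuation_le_one_iff, map_inv₀, h2, inv_one]
    obtain ⟨c, hc, rfl⟩ := hunif b hbn
    rw [mul_comm, ← mul_assoc, inv_mul_cancel₀ hwL, one_mul]
    exact hc
  have hyalg : IsAlgebraic E y := (IsFractionRing.isAlgebraic_iff R E L).mp hy.isAlgebraic
  obtain ⟨e, rfl⟩ := mem_range_of_isAlgebraic_of_valuationSubring (E := E) w hw W hRW hwinv hgen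
    y hyalg
  have he : IsIntegral R e := (isIntegral_algebraMap_iff (algebraMap E L).injective).mp hy
  obtain ⟨r, rfl⟩ := (IsIntegrallyClosed.isIntegral_iff (R := R) (K := E)).mp he
  exact ⟨r, IsScalarTower.algebraMap_apply R E L r⟩

end Closed

section Leaf

/-- **CONST for a cover with one unramified sheet.**  `L / F` finite, `W` a sheet of `L` in which
`w` generates the non-units.  Then `R` is integrally closed in `L` and `L` is finite over
`Frac R (x)`. -/
theorem constConclusion_of_sheet {R E F : Type} [CommRing R] [IsDomain R]
    [IsDiscreteValuationRing R] [HenselianLocalRing R] [IsAlgClosed (IsLocalRing.ResidueField R)]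
    [Field E] [CharZero E] [Algebra R E] [IsFractionRing R E]
    [Field F] [Algebra E F] [Algebra R F] [IsScalarTower R E F]
    (w : R) (hw : Irreducible w) (x : F)
    (hfin : FiniteDimensional (IntermediateField.adjoin E ({x} : Set F)) F)
    (L : Type) [Field L] [Algebra F L] [Algebra R L] [IsScalarTower R F L]
    [FiniteDimensional F L]
    (W : ValuationSubring L) (hW : IsSheet w (algebraMap F L x) W)
    (hunif : ∀ a ∈ W.nonunits, ∃ b ∈ W, a = algebraMap R L w * b) :
    ConstConclusion (R := R) L x := by
  let _ : Algebra E L := ((algebraMap F L).comp (algebraMap E F)).toAlgebra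
  have hEL : ∀ e : E, algebraMap E L e = algebraMap F L (algebraMap E F e) := fun _ => rfl
  have : IsScalarTower R E L := IsScalarTower.of_algebraMap_eq fun r => by
    rw [hEL, ← IsScalarTower.algebraMap_apply R E F, ← IsScalarTower.algebraMap_apply R F L]
  exact
    { closed := fun y hy =>
        isIntegral_mem_range_of_unramified (E := E) w hw W hW.1 hW.2.2.1 hunif y hy
      finite := finiteDimensional_baseField_cover (R := R) (E := E) x hfin }

/-- **Leaf CONST** of route G, from the leaves BASE (existence of a sheet of `F`) and SHEETS
(existence of a sheet of `L` above it, with uniformiser `w`). -/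
theorem constLeaf_of_base_sheets (hB : BaseLeaf) (hS : SheetsLeaf) : ConstLeaf := by
  intro R E F _ _ _ _ _ _ _ _ _ _ _ _ _ w q m x Bf Bi τ τE τR ctx L _ _ _ _ hL
  obtain ⟨V, hV⟩ := (hB w q m x Bf Bi τ τE τR ctx).exists_sheet
  have hSh := hS w q m x Bf Bi τ τE τR ctx L hL
  obtain ⟨W, hW, -⟩ := hSh.exists_over V hV
  have := hL.finite
  exact constConclusion_of_sheet (E := E) w ctx.irr x ctx.fin L W hW (hSh.unif W hW)

end Leaf

end Fermat.Agent.A2.H552
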