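import Fermat.Agent.A2.H12.AlgLeavesU
import Fermat.Agent.A2.H552.ConstLeaf

/-!
# A2 / route G, leaf CONST in the corrected (`U`) language (helper552)

Hand-in for `Fermat.Agent.A2.H12.ConstLeafU` of `H12/AlgLeavesU.lean`:

* `constLeafU_of_base_sheets : BaseLeaf → SheetsLeafU → ConstLeafU`.

Only `BaseConclusion.exists_sheet`, `SheetsConclusion.exists_over` and `SheetsConclusion.unif` are
used (via `constConclusion_of_sheet` of `H552/ConstLeaf.lean`).
-/

set_option autoImplicit false

namespace Fermat.Agent.A2.H552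

open Fermat.Agent.A2 Fermat.Agent.A2.H12

/-- **Leaf CONST (corrected form)** of route G, from the leaves BASE (existence of a sheet of `F`)
and SHEETS (existence of a sheet of `L` above it, with uniformiser `w`). -/
theorem constLeafU_of_base_sheets (hB : BaseLeaf) (hS : SheetsLeafU) : ConstLeafU := by
  intro R E F _ _ _ _ _ _ _ _ _ _ _ _ _ w q m x Bf Bi τ τE τR ctx L _ _ _ _ hL
  obtain ⟨V, hV⟩ := (hB w q m x Bf Bi τ τE τR ctx).exists_sheet
  have hSh := hS w q m x Bf Bi τ τE τR ctx L hL
  obtain ⟨W, hW, -⟩ := hSh.exists_over V hV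
  have := hL.finite
  exact constConclusion_of_sheet (E := E) w ctx.irr x ctx.fin L W hW (hSh.unif W hW)

end Fermat.Agent.A2.H552
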