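import Fermat.Agent.A2.H552.Const
import Fermat.Agent.A2.H552.KummerUnram
import Mathlib.RingTheory.Valuation.LocalSubring
import Mathlib.RingTheory.RootsOfUnity.AlgebraicallyClosed

/-!
# A2 / ALG, COVER-CONST (helper552): a Kummer cover `K(u^{1/m})`, `u ≡ 1 mod w`, has no new
constants over a Henselian base

`R` a Henselian discrete valuation ring with algebraically closed residue field, uniformiser `w`,
`E = Frac R` of characteristic zero, `m` invertible in the residue field.

* `exists_isPrimitiveRoot_of_henselian` : `R` contains a primitive `m`-th root of unity.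
* `kummer_no_new_constants` : `K ⊇ R` a field with a valuation subring `V ⊇ R` with uniformiser
  `w` (in the application: the Gauss valuation ring `V∞` of the function field), `Ω = K[z]`,
  `z ^ m = 1 + w t`, `t ∈ V`.  Then `E` is algebraically closed in `Ω`.
* `kummer_isIntegral_mem_range` : hence `R` is integrally closed in `Ω`
  (= hypothesis `hRF` of `A2.H193.kummer_root_mem` / `S18.H138.connected_special_fibre`
  for the cover `Ω`).
-/

set_option autoImplicit false

namespace Fermat.Agent.A2.H552

open Polynomial IsLocalRing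

section Roots

variable {R : Type*} [CommRing R] [HenselianLocalRing R] [IsAlgClosed (ResidueField R)]

/-- A Henselian local ring with algebraically closed residue field contains a primitive `m`-th
root of unity, for `m` invertible in the residue field. -/
theorem exists_isPrimitiveRoot_of_henselian (m : ℕ) (hm : (m : ResidueField R) ≠ 0) :
    ∃ ζ : R, IsPrimitiveRoot ζ m := by
  have hm0 : m ≠ 0 := by
    rintro rfl
    exact hm (by simp)
  have : NeZero (m : ResidueField R) := ⟨hm⟩
  obtain ⟨ζb, hζb⟩ := HasEnoughRootsOfUnity.prim (M := ResidueField R) (n := m)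
  have hζb0 : ζb ≠ 0 := hζb.ne_zero hm0
  obtain ⟨ζ, hζ, hres⟩ := exists_root_of_residue_simple_root (X ^ m - C (1 : R))
    (monic_X_pow_sub_C 1 hm0) ζb
    (by simp [hζb.pow_eq_one])
    (by
      simp only [Polynomial.map_sub, Polynomial.map_pow, map_X, map_C, derivative_sub,
        derivative_X_pow, derivative_C, sub_zero, eval_mul, eval_C, eval_pow, eval_X]
      exact mul_ne_zero hm (pow_ne_zero _ hζb0))
  have hζm : ζ ^ m = 1 := by
    have : (X ^ m - C (1 : R)).eval ζ = 0 := hζ
    simpa [sub_eq_zero] using this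
  refine ⟨ζ, hζm, fun l hl => ?_⟩
  apply hζb.dvd_of_pow_eq_one
  rw [← hres, ← map_pow, hl, map_one]

end Roots

section Cover

variable {R E K Ω : Type*} [CommRing R] [IsDomain R] [IsDiscreteValuationRing R]
  [HenselianLocalRing R] [IsAlgClosed (ResidueField R)]
  [Field E] [CharZero E] [Algebra R E] [IsFractionRing R E]
  [Field K] [Algebra R K] [Field Ω] [Algebra K Ω] [Algebra E Ω] [Algebra R Ω]
  [IsScalarTower R E Ω] [IsScalarTower R K Ω]

/-- **COVER-CONST.**  A Kummer cover `Ω = K[z]`, `z ^ m = 1 + w t`, of a field `K` carrying an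
unramified discrete valuation ring `V ⊇ R` has no new constants: `E = Frac R` is algebraically
closed in `Ω`. -/
theorem kummer_no_new_constants (w : R) (hw : Irreducible w) (V : ValuationSubring K)
    (hRV : ∀ r : R, algebraMap R K r ∈ V)
    (hwV : (algebraMap R K w)⁻¹ ∉ V)
    (hVgen : ∀ a ∈ V, a⁻¹ ∉ V → a * (algebraMap R K w)⁻¹ ∈ V)
    (hdisc : ∀ c : K, ∃ k : ℕ, algebraMap R K w ^ k * c ∈ V)
    (m : ℕ) (hm : (m : ResidueField R) ≠ 0)
    (t : K) (ht : t ∈ V) (z : Ω)
    (hz : z ^ m = algebraMap K Ω (1 + algebraMap R K w * t))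
    (hgen : ∀ b : Ω, b ∈ Algebra.adjoin K ({z} : Set Ω))
    (y : Ω) (hy : IsAlgebraic E y) : y ∈ (algebraMap E Ω).range := by
  have hm0 : m ≠ 0 := by
    rintro rfl
    exact hm (by simp)
  have hinjRE : Function.Injective (algebraMap R E) := IsFractionRing.injective R E
  have hinjRΩ : Function.Injective (algebraMap R Ω) := by
    rw [IsScalarTower.algebraMap_eq R E Ω]
    exact (algebraMap E Ω).injective.comp hinjRE
  have hinjRK : Function.Injective (algebraMap R K) := by
    intro a b h
    apply hinjRΩ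
    rw [IsScalarTower.algebraMap_apply R K Ω, IsScalarTower.algebraMap_apply R K Ω, h]
  have hwK0 : algebraMap R K w ≠ 0 := fun h => hw.ne_zero (hinjRK (by rw [h, map_zero]))
  -- roots of unity and `1/m`
  obtain ⟨ζ, hζ⟩ := exists_isPrimitiveRoot_of_henselian (R := R) m hm
  have hζK : IsPrimitiveRoot (algebraMap R K ζ) m := hζ.map_of_injective hinjRK
  have hmu : IsUnit ((m : ℕ) : R) := by
    rw [← IsLocalRing.notMem_maximalIdeal, ← residue_eq_zero_iff, map_natCast]
    exact hm
  obtain ⟨mi, hmi⟩ := hmu.exists_right_inv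
  have hmK : (m : K) * algebraMap R K mi = 1 := by
    have := congrArg (algebraMap R K) hmi
    simpa using this
  have hmK0 : (m : K) ≠ 0 := left_ne_zero_of_mul_eq_one hmK
  have hmKinv : ((m : K))⁻¹ ∈ V := by
    rw [inv_eq_of_mul_eq_one_right hmK]
    exact hRV mi
  -- a valuation subring of `Ω` dominating `V`
  obtain ⟨W, hle, hloc⟩ := (LocalSubring.range
    ((algebraMap K Ω).comp V.subtype)).exists_le_valuationSubring
  have hVW : ∀ a ∈ V, algebraMap K Ω a ∈ W := fun a ha =>
    hle ⟨⟨a, ha⟩, rfl⟩
  have hwW : (algebraMap K Ω (algebraMap R K w))⁻¹ ∉ W := by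
    intro hmem
    set f := (algebraMap K Ω).comp V.subtype with hf
    have hwr : algebraMap K Ω (algebraMap R K w) ∈ (LocalSubring.range f).toSubring :=
      ⟨⟨algebraMap R K w, hRV w⟩, rfl⟩
    have hu : IsUnit (Subring.inclusion hle ⟨_, hwr⟩) := by
      refine IsUnit.of_mul_eq_one ⟨(algebraMap K Ω (algebraMap R K w))⁻¹, hmem⟩
        (Subtype.ext ?_)
      change algebraMap K Ω (algebraMap R K w) * (algebraMap K Ω (algebraMap R K w))⁻¹ = 1
      exact mul_inv_cancel₀ (fun h => hwK0 ((algebraMap K Ω).injective (by rw [h, map_zero])))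
    have hu' := hloc.map_nonunit _ hu
    obtain ⟨c, hc⟩ := hu'.exists_right_inv
    obtain ⟨⟨b, hb⟩, hbc⟩ := c.2
    have h1 : algebraMap K Ω (algebraMap R K w) * algebraMap K Ω b = 1 := by
      have := congrArg Subtype.val hc
      simp only [Subring.coe_mul, Subring.coe_one] at this
      rw [← this, ← hbc]
      rfl
    have h2 : algebraMap R K w * b = 1 := by
      apply (algebraMap K Ω).injective
      rw [map_mul, h1, map_one]
    apply hwV
    rw [inv_eq_of_mul_eq_one_right h2]
    exact hb
  have hunr := (kummer_unramified V W hVW (algebraMap R K w) (hRV w) hwK0 hwW hVgen hdisc m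
    (Nat.pos_of_ne_zero hm0) hmK0 hmKinv (algebraMap R K ζ) hζK t ht z hz hgen).1
  have hRW : ∀ r : R, algebraMap R Ω r ∈ W := fun r => by
    rw [IsScalarTower.algebraMap_apply R K Ω]
    exact hVW _ (hRV r)
  rw [← IsScalarTower.algebraMap_apply R K Ω] at hwW hunr
  exact mem_range_of_isAlgebraic_of_valuationSubring w hw W hRW hwW hunr y hy

variable (E) in
include E in
/-- **COVER-CONST, integral form**: `R` is integrally closed in the Kummer cover `Ω`. -/
theorem kummer_isIntegral_mem_range (w : R) (hw : Irreducible w) (V : ValuationSubring K)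
    (hRV : ∀ r : R, algebraMap R K r ∈ V)
    (hwV : (algebraMap R K w)⁻¹ ∉ V)
    (hVgen : ∀ a ∈ V, a⁻¹ ∉ V → a * (algebraMap R K w)⁻¹ ∈ V)
    (hdisc : ∀ c : K, ∃ k : ℕ, algebraMap R K w ^ k * c ∈ V)
    (m : ℕ) (hm : (m : ResidueField R) ≠ 0)
    (t : K) (ht : t ∈ V) (z : Ω)
    (hz : z ^ m = algebraMap K Ω (1 + algebraMap R K w * t))
    (hgen : ∀ b : Ω, b ∈ Algebra.adjoin K ({z} : Set Ω))
    (y : Ω) (hy : IsIntegral R y) : y ∈ Set.range (algebraMap R Ω) := by
  have hyalg : IsAlgebraic E y :=
    (IsFractionRing.isAlgebraic_iff R E Ω).mp hy.isAlgebraic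
  obtain ⟨e, rfl⟩ := kummer_no_new_constants (E := E) w hw V hRV hwV hVgen hdisc m hm t ht z hz
    hgen y hyalg
  have he : IsIntegral R e :=
    (isIntegral_algebraMap_iff (algebraMap E Ω).injective).mp hy
  obtain ⟨r, rfl⟩ := (IsIntegrallyClosed.isIntegral_iff (R := R) (K := E)).mp he
  exact ⟨r, IsScalarTower.algebraMap_apply R E Ω r⟩

end Cover

end Fermat.Agent.A2.H552
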